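import Fermat.Agent.S36.HK.OldKillAll
import Fermat.Agent.S35.HK.EquivGen39

/-!
# S36, HECKE36-A: `pushHeckeAll : PushHeckeAll` (unconditional)

Author: helper30.  Pure wiring: helper39's `h39g_pushHeckeGen` (`S35/HK/EquivGen39.lean`, the
push-forwards `pushA`, `pushB` commute with `T_ℓ`, `ℓ ∤ M q`, for EVERY prime `q`) transported to
the maps `pushAlpha`, `pushBeta` of `S35/Skeleton.lean` (definitionally the same maps).
-/

set_option autoImplicit false

open AlgebraicCurve ModularCurve

noncomputable section

namespace Fermat.Agent.S36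

open Fermat.Agent.S35

/-- **HECKE36-A.**  `α_*, β_* : J₀(M q) → J₀(M)` commute with `T_r`, `r ∤ M q`, for every prime
`q` (also when `q ∣ M`). -/
theorem pushHeckeAll : PushHeckeAll := by
  intro M q _ _ hq r hr x
  have h := h39g_pushHeckeGen M q hq r hr x
  rw [pushA_eq_pushAlpha, pushB_eq_pushBeta] at h
  exact h

end Fermat.Agent.S36
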